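import Fermat.Agent.S35.H504.Tame
import Fermat.Agent.S38.IA.Gal.H1.LocGen
import Fermat.Agent.A2.Top.H672.Target
import Fermat.Agent.S30.H810.Fin

/-!
# S59 moonshot, cell (C) LO-SQ, leaf W-COUNT, sub-leaf TAME-CYC (helper319)

`q ‖ N`, `p ≠ q` primes, `P` a place of `ℚ̄` over `q`, `(φ, σ)` a tame pair at `P`
(`S38.IA.Gal.IsTamePair`: `σ ∈ I_P` moves the `p`-th roots of `q`).  Then the inertia group
`I_P` acts on `J₀(N)[p ^ n]` through the cyclic group generated by `σ`: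

* `tameCyc_point`   : for `x` with `p ^ n • x = 0` and `τ ∈ I_P` there is `j` with
  `τ • x = σ ^ j • x`;
* `tameCyc`         : the same with ONE `j` for all of `J₀(N)[p ^ n]`;
* `fixed_of_sigma_fixed` : `σ • x = x ⟹ τ • x = x` for all `τ ∈ I_P`
  (so `J₀(N)[p ^ n]^{I_P} = ker (σ - 1)`);
* `sub_mem_zmultiples` : `τ • x - x ∈ ℤ • (σ • x - x)`;
* `tame_rel` : `(φ σ φ⁻¹) • x = σ ^ q • x`.

Inputs: the wall A2 (`A2.Top.H672.target`: unipotent inertia on `J₀(N)[m]`), the orbit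
representation of row S35 (`S35.H504`), LOC-GEN of row HARD (`S38.IA.Gal.locGenInertia`),
finiteness of torsion (`S30.H810.torsion_finite`).  The forms `*_of_target` take the wall as a
hypothesis (usable at any level where unipotency is known).
-/

set_option autoImplicit false
set_option linter.style.haveILetI false

noncomputable section

namespace Fermat.Agent.S59.LoSqC.H319

open ModularCurve AlgebraicCurve
open Fermat.Agent.S56 Fermat.Agent.S38.IA.Gal Fermat.Agent.S35.H504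

variable {N : ℕ}

/-- The orbit representation has `p`-power exponent on inertia, under the wall A2. -/
theorem pPowOnInertia_orbitRep {q p n : ℕ} (hU : Fermat.Agent.A2.Target N q (p ^ n))
    (P : ValuationSubring Qb) (hP : P.LiesOverPrime q) (x : JZero N) (hx : p ^ n • x = 0) :
    PPowOnInertia p P (orbitRep x) := by
  intro τ hτ
  refine ⟨n, ?_⟩
  rw [← map_pow, orbitRep_eq_one_iff]
  rintro y ⟨g, rfl⟩
  exact pow_torsion_smul_eq_self_of_target hU P hP hτ (nsmul_galois_smul_eq_zero g hx)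

/-- **TAME-CYC, pointwise, from the wall.** -/
theorem tameCyc_point_of_target [NeZero N] {q p n : ℕ} (hq : q.Prime) (hp : p.Prime)
    (hpq : p ≠ q) (hU : Fermat.Agent.A2.Target N q (p ^ n))
    (P : ValuationSubring Qb) (hP : P.LiesOverPrime q) {φ σ : GQ} (h : IsTamePair p q P φ σ)
    {τ : GQ} (hτ : τ ∈ P.inertiaSubgroupIn ℚ) (x : JZero N) (hx : p ^ n • x = 0) :
    ∃ j : ℕ, τ • x = (σ ^ j) • x := by
  obtain ⟨j, hj⟩ := locGenInertia p q hp hq hpq P hP φ σ h _ (orbitRep x)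
    (orbitRep_finiteLevel x) (pPowOnInertia_orbitRep hU P hP x hx) τ hτ
  refine ⟨j, ?_⟩
  rw [← map_pow] at hj
  exact congrArg (fun e : Equiv.Perm (MulAction.orbit GQ x) =>
    ((e ⟨x, MulAction.mem_orbit_self x⟩ : MulAction.orbit GQ x) : JZero N)) hj

/-- The tame relation on `J₀(N)[p ^ n]`, from the wall. -/
theorem tame_rel_of_target [NeZero N] {q p n : ℕ} (hq : q.Prime) (hp : p.Prime)
    (hpq : p ≠ q) (hU : Fermat.Agent.A2.Target N q (p ^ n))
    (P : ValuationSubring Qb) (hP : P.LiesOverPrime q) {φ σ : GQ} (h : IsTamePair p q P φ σ)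
    (x : JZero N) (hx : p ^ n • x = 0) :
    (φ * σ * φ⁻¹) • x = (σ ^ q) • x := by
  have hj := locGenRel p q hp hq hpq P hP φ σ h _ (orbitRep x)
    (orbitRep_finiteLevel x) (pPowOnInertia_orbitRep hU P hP x hx)
  rw [← map_pow] at hj
  exact congrArg (fun e : Equiv.Perm (MulAction.orbit GQ x) =>
    ((e ⟨x, MulAction.mem_orbit_self x⟩ : MulAction.orbit GQ x) : JZero N)) hj

/-- `σ • x = x ⟹ σ ^ j • x = x`. -/
theorem pow_smul_eq_self {σ : GQ} {x : JZero N} (h : σ • x = x) (j : ℕ) : (σ ^ j) • x = x := by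
  induction j with
  | zero => rw [pow_zero, galois_one_smul]
  | succ j ih => rw [pow_succ, galois_mul_smul, h, ih]

/-- **The inertia invariants are the invariants of the tame generator**, from the wall. -/
theorem fixed_of_sigma_fixed_of_target [NeZero N] {q p n : ℕ} (hq : q.Prime) (hp : p.Prime)
    (hpq : p ≠ q) (hU : Fermat.Agent.A2.Target N q (p ^ n))
    (P : ValuationSubring Qb) (hP : P.LiesOverPrime q) {φ σ : GQ} (h : IsTamePair p q P φ σ)
    (x : JZero N) (hx : p ^ n • x = 0) (hσ : σ • x = x) :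
    ∀ τ ∈ P.inertiaSubgroupIn ℚ, τ • x = x := by
  intro τ hτ
  obtain ⟨j, hj⟩ := tameCyc_point_of_target hq hp hpq hU P hP h hτ x hx
  rw [hj, pow_smul_eq_self hσ]

/-- `τ • x - x` is a multiple of `σ • x - x`, from the wall. -/
theorem sub_mem_zmultiples_of_target [NeZero N] {q p n : ℕ} (hq : q.Prime) (hp : p.Prime)
    (hpq : p ≠ q) (hU : Fermat.Agent.A2.Target N q (p ^ n))
    (P : ValuationSubring Qb) (hP : P.LiesOverPrime q) {φ σ : GQ} (h : IsTamePair p q P φ σ)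
    {τ : GQ} (hτ : τ ∈ P.inertiaSubgroupIn ℚ) (x : JZero N) (hx : p ^ n • x = 0) :
    ∃ j : ℕ, τ • x - x = j • (σ • x - x) := by
  obtain ⟨j, hj⟩ := tameCyc_point_of_target hq hp hpq hU P hP h hτ x hx
  refine ⟨j, ?_⟩
  rw [hj, pow_smul_eq_of_target hU P hP h.mem hx j]
  abel

/-! ## Unconditional forms at `q ‖ N` -/

/-- **TAME-CYC, pointwise.** -/
theorem tameCyc_point [NeZero N] {q p : ℕ} (hq : q.Prime) (hqN : q ∣ N) (hq2 : ¬ q ^ 2 ∣ N)
    (hp : p.Prime) (hpq : p ≠ q) (n : ℕ)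
    (P : ValuationSubring Qb) (hP : P.LiesOverPrime q) {φ σ : GQ} (h : IsTamePair p q P φ σ)
    {τ : GQ} (hτ : τ ∈ P.inertiaSubgroupIn ℚ) (x : JZero N) (hx : p ^ n • x = 0) :
    ∃ j : ℕ, τ • x = (σ ^ j) • x := by
  have hqpn : ¬ q ∣ p ^ n := fun hd =>
    hpq ((Nat.prime_dvd_prime_iff_eq hq hp).mp (hq.dvd_of_dvd_pow hd)).symm
  exact tameCyc_point_of_target hq hp hpq
    (Fermat.Agent.A2.Top.H672.target N q (p ^ n) hq hqN hq2 (NeZero.ne N)
      (pow_pos hp.pos n) hqpn) P hP h hτ x hx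

/-- **`J₀(N)[p ^ n]^{I_P} = ker (σ - 1)`.** -/
theorem fixed_of_sigma_fixed [NeZero N] {q p : ℕ} (hq : q.Prime) (hqN : q ∣ N)
    (hq2 : ¬ q ^ 2 ∣ N) (hp : p.Prime) (hpq : p ≠ q) (n : ℕ)
    (P : ValuationSubring Qb) (hP : P.LiesOverPrime q) {φ σ : GQ} (h : IsTamePair p q P φ σ)
    (x : JZero N) (hx : p ^ n • x = 0) (hσ : σ • x = x) :
    ∀ τ ∈ P.inertiaSubgroupIn ℚ, τ • x = x := by
  have hqpn : ¬ q ∣ p ^ n := fun hd =>
    hpq ((Nat.prime_dvd_prime_iff_eq hq hp).mp (hq.dvd_of_dvd_pow hd)).symm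
  exact fixed_of_sigma_fixed_of_target hq hp hpq
    (Fermat.Agent.A2.Top.H672.target N q (p ^ n) hq hqN hq2 (NeZero.ne N)
      (pow_pos hp.pos n) hqpn) P hP h x hx hσ

/-- `τ • x - x ∈ ℕ • (σ • x - x)`. -/
theorem sub_mem_zmultiples [NeZero N] {q p : ℕ} (hq : q.Prime) (hqN : q ∣ N)
    (hq2 : ¬ q ^ 2 ∣ N) (hp : p.Prime) (hpq : p ≠ q) (n : ℕ)
    (P : ValuationSubring Qb) (hP : P.LiesOverPrime q) {φ σ : GQ} (h : IsTamePair p q P φ σ)
    {τ : GQ} (hτ : τ ∈ P.inertiaSubgroupIn ℚ) (x : JZero N) (hx : p ^ n • x = 0) :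
    ∃ j : ℕ, τ • x - x = j • (σ • x - x) := by
  have hqpn : ¬ q ∣ p ^ n := fun hd =>
    hpq ((Nat.prime_dvd_prime_iff_eq hq hp).mp (hq.dvd_of_dvd_pow hd)).symm
  exact sub_mem_zmultiples_of_target hq hp hpq
    (Fermat.Agent.A2.Top.H672.target N q (p ^ n) hq hqN hq2 (NeZero.ne N)
      (pow_pos hp.pos n) hqpn) P hP h hτ x hx

/-- The tame relation on `J₀(N)[p ^ n]`. -/
theorem tame_rel [NeZero N] {q p : ℕ} (hq : q.Prime) (hqN : q ∣ N)
    (hq2 : ¬ q ^ 2 ∣ N) (hp : p.Prime) (hpq : p ≠ q) (n : ℕ)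
    (P : ValuationSubring Qb) (hP : P.LiesOverPrime q) {φ σ : GQ} (h : IsTamePair p q P φ σ)
    (x : JZero N) (hx : p ^ n • x = 0) :
    (φ * σ * φ⁻¹) • x = (σ ^ q) • x := by
  have hqpn : ¬ q ∣ p ^ n := fun hd =>
    hpq ((Nat.prime_dvd_prime_iff_eq hq hp).mp (hq.dvd_of_dvd_pow hd)).symm
  exact tame_rel_of_target hq hp hpq
    (Fermat.Agent.A2.Top.H672.target N q (p ^ n) hq hqN hq2 (NeZero.ne N)
      (pow_pos hp.pos n) hqpn) P hP h x hx

/-! ## The uniform form: one exponent for all of `J₀(N)[p ^ n]` -/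

/-- The `m`-torsion of `J₀(N)` as a Galois-stable subset. -/
def torsSub (N m : ℕ) : SubMulAction GQ (JZero N) where
  carrier := {x : JZero N | m • x = 0}
  smul_mem' g _ hx := nsmul_galois_smul_eq_zero g hx

theorem mem_torsSub {m : ℕ} {x : JZero N} : x ∈ torsSub N m ↔ m • x = 0 := Iff.rfl

/-- The permutation representation of `G_ℚ` on `J₀(N)[m]`. -/
def torsRep (N m : ℕ) : GQ →* Equiv.Perm (torsSub N m) :=
  MulAction.toPermHom GQ (torsSub N m)

theorem coe_torsRep_apply {m : ℕ} (σ : GQ) (y : torsSub N m) :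
    ((torsRep N m σ y : torsSub N m) : JZero N) = σ • (y : JZero N) :=
  rfl

theorem torsRep_eq_one_iff {m : ℕ} (σ : GQ) :
    torsRep N m σ = 1 ↔ ∀ y : JZero N, m • y = 0 → σ • y = y := by
  constructor
  · intro h y hy
    exact congrArg (fun e : Equiv.Perm (torsSub N m) =>
      ((e ⟨y, hy⟩ : torsSub N m) : JZero N)) h
  · intro h
    ext y
    rw [coe_torsRep_apply]
    exact h y y.2

/-- The representation on `J₀(N)[m]` has finite level. -/
theorem torsRep_finiteLevel [NeZero N] (m : ℕ) [NeZero m] :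
    H794.FiniteLevel (torsRep N m) := by
  classical
  haveI : Finite (torsSub N m) :=
    (Fermat.Agent.S30.H810.torsion_finite (N := N) m).to_subtype
  choose E hE hfix using fun x : torsSub N m => orbitRep_finiteLevel (x : JZero N)
  haveI : ∀ x, FiniteDimensional ℚ (E x) := hE
  refine ⟨⨆ x, E x, IntermediateField.finiteDimensional_iSup_of_finite, fun τ hτ => ?_⟩
  rw [torsRep_eq_one_iff]
  intro y hy
  have h1 : orbitRep y τ = 1 :=
    hfix ⟨y, hy⟩ τ fun a ha => hτ a ((le_iSup E ⟨y, hy⟩ : E ⟨y, hy⟩ ≤ ⨆ x, E x) ha)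
  exact (orbitRep_eq_one_iff y τ).mp h1 y (MulAction.mem_orbit_self y)

/-- **TAME-CYC, uniform, from the wall.** -/
theorem tameCyc_of_target [NeZero N] {q p n : ℕ} (hq : q.Prime) (hp : p.Prime)
    (hpq : p ≠ q) (hU : Fermat.Agent.A2.Target N q (p ^ n))
    (P : ValuationSubring Qb) (hP : P.LiesOverPrime q) {φ σ : GQ} (h : IsTamePair p q P φ σ)
    {τ : GQ} (hτ : τ ∈ P.inertiaSubgroupIn ℚ) :
    ∃ j : ℕ, ∀ x : JZero N, p ^ n • x = 0 → τ • x = (σ ^ j) • x := by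
  haveI : NeZero (p ^ n) := ⟨pow_ne_zero n hp.ne_zero⟩
  have hpow : PPowOnInertia p P (torsRep N (p ^ n)) := by
    intro τ' hτ'
    refine ⟨n, ?_⟩
    rw [← map_pow, torsRep_eq_one_iff]
    intro y hy
    exact pow_torsion_smul_eq_self_of_target hU P hP hτ' hy
  obtain ⟨j, hj⟩ := locGenInertia p q hp hq hpq P hP φ σ h _ (torsRep N (p ^ n))
    (torsRep_finiteLevel (p ^ n)) hpow τ hτ
  refine ⟨j, fun x hx => ?_⟩
  rw [← map_pow] at hj
  exact congrArg (fun e : Equiv.Perm (torsSub N (p ^ n)) =>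
    ((e ⟨x, hx⟩ : torsSub N (p ^ n)) : JZero N)) hj

/-- **TAME-CYC, uniform**: `I_P` acts on `J₀(N)[p ^ n]` through the cyclic group generated by the
tame generator `σ`. -/
theorem tameCyc [NeZero N] {q p : ℕ} (hq : q.Prime) (hqN : q ∣ N) (hq2 : ¬ q ^ 2 ∣ N)
    (hp : p.Prime) (hpq : p ≠ q) (n : ℕ)
    (P : ValuationSubring Qb) (hP : P.LiesOverPrime q) {φ σ : GQ} (h : IsTamePair p q P φ σ)
    {τ : GQ} (hτ : τ ∈ P.inertiaSubgroupIn ℚ) :
    ∃ j : ℕ, ∀ x : JZero N, p ^ n • x = 0 → τ • x = (σ ^ j) • x := by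
  have hqpn : ¬ q ∣ p ^ n := fun hd =>
    hpq ((Nat.prime_dvd_prime_iff_eq hq hp).mp (hq.dvd_of_dvd_pow hd)).symm
  exact tameCyc_of_target hq hp hpq
    (Fermat.Agent.A2.Top.H672.target N q (p ^ n) hq hqN hq2 (NeZero.ne N)
      (pow_pos hp.pos n) hqpn) P hP h hτ

/-- Tame pairs exist (`S38.IA.Gal.locGenExists`), so the statements above are never vacuous. -/
theorem exists_tamePair {q p : ℕ} (hq : q.Prime) (hp : p.Prime) (hpq : p ≠ q)
    (P : ValuationSubring Qb) (hP : P.LiesOverPrime q) :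
    ∃ φ σ : GQ, IsTamePair p q P φ σ :=
  locGenExists p q hp hq hpq P hP

end Fermat.Agent.S59.LoSqC.H319
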